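import Mathlib.Algebra.Module.NatInt
import Mathlib.Algebra.Order.BigOperators.Group.Finset
import Mathlib.Algebra.Order.Ring.Abs
import Mathlib.Data.Finset.Max
import Mathlib.Data.Fintype.Card
import Mathlib.Data.Nat.Factorial.Basic
import Mathlib.Tactic.Linarith

/-!
# Schur's theorem

Every colouring of `1, ..., N` with `k` colours, `N ≥ 3 k!`, has a monochromatic solution of
`x + y = z`: the differences of the points at a distance of one colour from the least point avoid
that colour.
-/

set_option autoImplicit false

namespace FA.Schur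

/-- The greatest size of a set whose differences have at most `k` colours, without monochromatic
`x + y = z`. -/
def bound : ℕ → ℕ
  | 0 => 1
  | k + 1 => (k + 1) * bound k + 1

theorem bound_lt : ∀ k : ℕ, bound k + 1 ≤ 3 * k.factorial
  | 0 => by simp [bound]
  | 1 => by simp [bound]
  | k + 2 => by
    have ih := bound_lt (k + 1)
    rw [bound, Nat.factorial_succ (k + 1)]
    nlinarith

theorem card_le_bound {κ : Type*} [DecidableEq κ] (c : ℕ → κ) {N : ℕ}
    (hfree : ∀ x y, 0 < x → 0 < y → x + y ≤ N → c x = c (x + y) → c y ≠ c (x + y)) :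
    ∀ (k : ℕ) (C : Finset κ) (S : Finset ℕ), C.card ≤ k → (∀ s ∈ S, s ≤ N) →
      (∀ a ∈ S, ∀ b ∈ S, a < b → c (b - a) ∈ C) → S.card ≤ bound k := by
  intro k
  induction k with
  | zero =>
    intro C S hC _ hS
    rw [Nat.le_zero, Finset.card_eq_zero] at hC
    subst hC
    refine Finset.card_le_one.mpr fun a ha b hb => ?_
    by_contra hne
    rcases Nat.lt_or_gt_of_ne hne with h | h
    · exact absurd (hS a ha b hb h) (Finset.notMem_empty _)
    · exact absurd (hS b hb a ha h) (Finset.notMem_empty _)
  | succ k ih =>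
    intro C S hC hN hS
    rcases S.eq_empty_or_nonempty with rfl | hne
    · simp
    set s₀ := S.min' hne
    have hs₀ : s₀ ∈ S := S.min'_mem hne
    set R := S.erase s₀
    have hlt : ∀ a ∈ R, s₀ < a := fun a ha =>
      lt_of_le_of_ne (S.min'_le a (Finset.mem_of_mem_erase ha)) (Finset.ne_of_mem_erase ha).symm
    have hcard : S.card = R.card + 1 := (Finset.card_erase_add_one hs₀).symm
    have hfib : ∀ i ∈ C, (R.filter fun a => c (a - s₀) = i).card ≤ bound k := by
      intro i hi
      refine ih (C.erase i) _ ?_ (fun a ha => hN a (Finset.mem_of_mem_erase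
        (Finset.mem_filter.mp ha).1)) ?_
      · rw [Finset.card_erase_of_mem hi]
        omega
      intro a ha b hb hab
      obtain ⟨haR, hai⟩ := Finset.mem_filter.mp ha
      obtain ⟨hbR, hbi⟩ := Finset.mem_filter.mp hb
      refine Finset.mem_erase.mpr ⟨?_, hS a (Finset.mem_of_mem_erase haR) b
        (Finset.mem_of_mem_erase hbR) hab⟩
      have h1 := hlt a haR
      have h2 := hN b (Finset.mem_of_mem_erase hbR)
      have h3 := hfree (a - s₀) (b - a) (by omega) (by omega) (by omega)
      rw [show a - s₀ + (b - a) = b - s₀ by omega, hai, hbi] at h3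
      exact h3 rfl
    have hmaps : Set.MapsTo (fun a => c (a - s₀)) R C :=
      fun a ha => hS s₀ hs₀ a (Finset.mem_of_mem_erase ha) (hlt a ha)
    have hR : R.card ≤ C.card * bound k := by
      rw [Finset.card_eq_sum_card_fiberwise hmaps, ← smul_eq_mul]
      exact Finset.sum_le_card_nsmul _ _ _ hfib
    rw [hcard, bound]
    exact Nat.add_le_add_right (hR.trans (Nat.mul_le_mul_right _ hC)) 1

/-- **Schur's theorem**: a colouring of `1, ..., N` with at most `k` colours, `N + 1 ≥ 3 k!`, has a
monochromatic solution of `x + y = z`. -/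
theorem exists_monochromatic {κ : Type*} [Fintype κ] (c : ℕ → κ) {N k : ℕ}
    (hk : Fintype.card κ ≤ k) (hN : 3 * k.factorial ≤ N + 1) :
    ∃ x y : ℕ, 0 < x ∧ 0 < y ∧ x + y ≤ N ∧ c x = c (x + y) ∧ c y = c (x + y) := by
  classical
  by_contra hno
  simp only [not_exists, not_and] at hno
  have h := card_le_bound c (N := N) hno k Finset.univ (Finset.range (N + 1))
    (by rwa [Finset.card_univ]) (fun s hs => Nat.lt_succ_iff.mp (Finset.mem_range.mp hs))
    (fun _ _ _ _ _ => Finset.mem_univ _)
  rw [Finset.card_range] at h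
  have := bound_lt k
  omega

end FA.Schur
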