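import Mathlib.Data.Nat.Choose.Dvd
import Mathlib.FieldTheory.Finite.Basic
import Mathlib.GroupTheory.Perm.Cycle.Type
import Mathlib.NumberTheory.Padics.Hensel
import Mathlib.NumberTheory.Padics.RingHoms
import Mathlib.NumberTheory.Basic

/-!
# The first case modulo the powers of `p`

For an odd prime `p` a `p`th power prime to `p` is determined modulo `p²` by its root modulo `p`.
So `x ^ p + y ^ p = z ^ p` is soluble in `p`-adic units as soon as it is modulo `p²`, which happens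
when `(a + 1) ^ p ≡ a ^ p + 1 (mod p²)` for some `a` prime to `p`, `a ≢ -1`.
-/

set_option autoImplicit false
set_option linter.style.haveILetI false

noncomputable section

open Polynomial

namespace FA.Schur

variable {p : ℕ} [hp : Fact p.Prime]

/-- `(p v + u) ^ p` modulo `p³`. -/
theorem dvd_binomial {R : Type*} [CommRing R] (hodd : p ≠ 2) (u v : R) :
    (p : R) ^ 3 ∣ ((p : R) * v + u) ^ p - u ^ p - (p : R) ^ 2 * v * u ^ (p - 1) := by
  obtain ⟨q, hq⟩ : ∃ q, p = q + 3 := ⟨p - 3, by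
    have := hp.out.two_le
    omega⟩
  rw [add_pow, Finset.sum_range_succ', show Finset.range p = Finset.range (q + 2 + 1) by rw [hq],
    Finset.sum_range_succ']
  simp only [pow_zero, one_mul, Nat.sub_zero, Nat.choose_zero_right, Nat.cast_one, mul_one,
    zero_add, pow_one, Nat.choose_one_right]
  rw [show ∀ S : R, S + (p : R) * v * u ^ (p - 1) * (p : R) + u ^ p - u ^ p -
      (p : R) ^ 2 * v * u ^ (p - 1) = S from fun S => by ring]
  refine Finset.dvd_sum fun i hi => ?_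
  rw [Finset.mem_range] at hi
  rcases Nat.lt_or_ge (i + 1 + 1) p with h | h
  · obtain ⟨c, hc⟩ := Nat.Prime.dvd_choose_self hp.out (show i + 1 + 1 ≠ 0 by omega) h
    refine ⟨(p : R) ^ i * v ^ (i + 1 + 1) * u ^ (p - (i + 1 + 1)) * (c : R), ?_⟩
    rw [hc, Nat.cast_mul, mul_pow]
    ring
  · refine (pow_dvd_pow (p : R) (show 3 ≤ i + 1 + 1 by omega)).trans ?_
    rw [mul_pow, mul_assoc, mul_assoc]
    exact Dvd.intro _ rfl

omit hp in
/-- A congruence modulo `p` is one modulo `p²` for the `p`th powers. -/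
theorem pow_congr {u v : ℤ} (h : (p : ℤ) ∣ u - v) : (p : ℤ) ^ 2 ∣ u ^ p - v ^ p := by
  simpa using dvd_sub_pow_of_dvd_sub h 1

/-- From a solution of the first case modulo `p²` to the criterion. -/
theorem exists_criterion {x y z : ℤ} (hx : ¬ (p : ℤ) ∣ x) (hy : ¬ (p : ℤ) ∣ y)
    (hz : ¬ (p : ℤ) ∣ z) (h : (p : ℤ) ^ 2 ∣ x ^ p + y ^ p - z ^ p) :
    ∃ a : ℕ, 0 < a ∧ a ≤ p - 2 ∧ (p : ℤ) ^ 2 ∣ ((a : ℤ) + 1) ^ p - (a : ℤ) ^ p - 1 := by
  have hP : Prime (p : ℤ) := Nat.prime_iff_prime_int.mp hp.out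
  have hcast : ∀ w : ℤ, (w : ZMod p) = 0 ↔ (p : ℤ) ∣ w := fun w =>
    ZMod.intCast_zmod_eq_zero_iff_dvd w p
  have hsum : (x : ZMod p) + y = z := by
    have h' : (p : ℤ) ∣ x ^ p + y ^ p - z ^ p := (dvd_pow_self _ two_ne_zero).trans h
    rw [← hcast] at h'
    push_cast at h'
    rwa [ZMod.pow_card, ZMod.pow_card, ZMod.pow_card, sub_eq_zero] at h'
  have hy0 : (y : ZMod p) ≠ 0 := fun e => hy ((hcast y).mp e)
  set a : ℕ := ((x : ZMod p) / y).val
  have ha : ((a : ℕ) : ZMod p) = (x : ZMod p) / y := ZMod.natCast_zmod_val _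
  have ha0 : (a : ZMod p) ≠ 0 := by
    rw [ha]
    exact div_ne_zero (fun e => hx ((hcast x).mp e)) hy0
  have hap : a < p := ZMod.val_lt _
  refine ⟨a, Nat.pos_of_ne_zero fun e => ha0 (by rw [e, Nat.cast_zero]), ?_, ?_⟩
  · by_contra hc
    have e : a + 1 = p := by omega
    have h1 : (a : ZMod p) + 1 = 0 := by
      rw [← Nat.cast_one, ← Nat.cast_add, e, ZMod.natCast_self]
    rw [ha, div_add_one hy0, hsum, div_eq_zero_iff] at h1
    exact h1.elim (fun e => hz ((hcast z).mp e)) hy0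
  · have e1 : (p : ℤ) ^ 2 ∣ ((a : ℤ) * y) ^ p - x ^ p := pow_congr (by
      rw [← hcast]
      push_cast
      rw [ha, div_mul_cancel₀ _ hy0, sub_self])
    have e2 : (p : ℤ) ^ 2 ∣ (((a : ℤ) + 1) * y) ^ p - z ^ p := pow_congr (by
      rw [← hcast]
      push_cast
      rw [ha, add_mul, one_mul, div_mul_cancel₀ _ hy0, hsum, sub_self])
    have hdvd : (p : ℤ) ^ 2 ∣ y ^ p * (((a : ℤ) + 1) ^ p - (a : ℤ) ^ p - 1) := by
      have := (dvd_sub (dvd_sub e2 e1) h)
      convert! this using 1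
      rw [mul_pow, mul_pow]
      ring
    exact (((hP.coprime_iff_not_dvd.mpr hy).pow (m := 2) (n := p))).dvd_of_dvd_mul_left hdvd

/-- **The criterion gives a solution in `p`-adic units.** -/
theorem exists_units (hodd : p ≠ 2) {a : ℕ} (ha0 : 0 < a) (hap : a ≤ p - 2)
    (h : (p : ℤ) ^ 2 ∣ ((a : ℤ) + 1) ^ p - (a : ℤ) ^ p - 1) :
    ∃ x y z : ℤ_[p], IsUnit x ∧ IsUnit y ∧ IsUnit z ∧ x ^ p + y ^ p = z ^ p := by
  have hp2 := hp.out.two_le
  have hnorm : ∀ m : ℕ, 0 < m → m < p → ‖(m : ℤ_[p])‖ = 1 := fun m hm hmp =>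
    le_antisymm (PadicInt.norm_le_one _) (not_lt.mp fun hlt =>
      absurd (Nat.le_of_dvd hm (PadicInt.norm_natCast_lt_one_iff.mp hlt)) (by omega))
  obtain ⟨s, hs⟩ := h
  have hs' : ((a : ℤ_[p]) + 1) ^ p - (a : ℤ_[p]) ^ p - 1 = (p : ℤ_[p]) ^ 2 * (s : ℤ_[p]) := by
    exact_mod_cast congrArg (fun w : ℤ => (w : ℤ_[p])) hs
  set u : ℤ_[p] := (a : ℤ_[p]) + 1
  have hu : ‖u‖ = 1 := by
    simp only [u]
    rw [← Nat.cast_one, ← Nat.cast_add]
    exact hnorm (a + 1) (by omega) (by omega)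
  set b : ℤ_[p] := (p : ℤ_[p]) * (-(s : ℤ_[p])) + u
  have hb : ‖b‖ = 1 := by
    refine le_antisymm (PadicInt.norm_le_one _) (hu ▸ ?_)
    have e : u = b + (p : ℤ_[p]) * (s : ℤ_[p]) := by simp only [b]; ring
    have hsmall : ‖(p : ℤ_[p]) * (s : ℤ_[p])‖ < 1 := by
      rw [norm_mul, PadicInt.norm_p]
      calc (p : ℝ)⁻¹ * ‖(s : ℤ_[p])‖ ≤ (p : ℝ)⁻¹ * 1 :=
            mul_le_mul_of_nonneg_left (PadicInt.norm_le_one _) (by positivity)
        _ < 1 := by
            rw [mul_one]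
            exact inv_lt_one_of_one_lt₀ (by exact_mod_cast hp.out.one_lt)
    by_contra hlt
    have := (PadicInt.nonarchimedean b ((p : ℤ_[p]) * (s : ℤ_[p]))).trans_lt
      (max_lt (not_le.mp hlt) (hu.symm ▸ hsmall))
    rw [← e] at this
    exact lt_irrefl _ this
  set F : ℤ_[p][X] := X ^ p - C ((a : ℤ_[p]) ^ p + 1)
  have hd : ‖aeval b (derivative F)‖ = (p : ℝ)⁻¹ := by
    simp only [F, derivative_sub, derivative_X_pow, derivative_C, sub_zero, map_mul, map_pow,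
      aeval_X, map_natCast]
    rw [norm_mul, norm_pow, hb, one_pow, mul_one, PadicInt.norm_p]
  have hF : ‖aeval b F‖ < ‖aeval b (derivative F)‖ ^ 2 := by
    have hdvd : (p : ℤ_[p]) ^ 3 ∣ b ^ p - ((a : ℤ_[p]) ^ p + 1) := by
      obtain ⟨w, hw⟩ := dvd_binomial (R := ℤ_[p]) hodd u (-(s : ℤ_[p]))
      obtain ⟨c, hc⟩ : (p : ℤ_[p]) ∣ u ^ (p - 1) - 1 := by
        rw [← Ideal.mem_span_singleton, ← PadicInt.maximalIdeal_eq_span_p, ← PadicInt.ker_toZMod,
          RingHom.mem_ker, map_sub, map_pow, map_one, ZMod.pow_card_sub_one_eq_one, sub_self]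
        intro h0
        rw [← RingHom.mem_ker, PadicInt.ker_toZMod, IsLocalRing.mem_maximalIdeal, mem_nonunits_iff,
          PadicInt.isUnit_iff] at h0
        exact h0 hu
      exact ⟨w - (s : ℤ_[p]) * c, by
        linear_combination hw + hs' - (p : ℤ_[p]) ^ 2 * (s : ℤ_[p]) * hc⟩
    obtain ⟨w, hw⟩ := hdvd
    have hA : aeval b F = b ^ p - ((a : ℤ_[p]) ^ p + 1) := by simp [F]
    rw [hA, hw, norm_mul, PadicInt.norm_p_pow, hd]
    calc (p : ℝ) ^ (-(3 : ℕ) : ℤ) * ‖w‖ ≤ (p : ℝ) ^ (-(3 : ℕ) : ℤ) * 1 :=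
          mul_le_mul_of_nonneg_left (PadicInt.norm_le_one _) (zpow_nonneg (Nat.cast_nonneg p) _)
      _ < ((p : ℝ)⁻¹) ^ 2 := by
          rw [mul_one, zpow_neg, zpow_natCast, inv_pow]
          exact inv_strictAnti₀ (pow_pos (by exact_mod_cast hp.out.pos) 2)
            (pow_lt_pow_right₀ (by exact_mod_cast hp.out.one_lt) (by norm_num))
  obtain ⟨z, hz, -⟩ := hensels_lemma hF
  simp only [F, map_sub, map_pow, aeval_X, aeval_C, Algebra.algebraMap_self, RingHom.id_apply,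
    sub_eq_zero] at hz
  refine ⟨(a : ℤ_[p]), 1, z, PadicInt.isUnit_iff.mpr (hnorm a ha0 (by omega)), isUnit_one, ?_,
    by rw [one_pow, hz]⟩
  by_contra hu0
  have hzlt : ‖z‖ < 1 := by
    rw [PadicInt.isUnit_iff] at hu0
    exact lt_of_le_of_ne (PadicInt.norm_le_one z) hu0
  have hz0 : PadicInt.toZMod z = 0 := by
    rw [← RingHom.mem_ker, PadicInt.ker_toZMod, IsLocalRing.mem_maximalIdeal, mem_nonunits_iff,
      PadicInt.isUnit_iff]
    exact hzlt.ne
  have h0 : ((a + 1 : ℕ) : ZMod p) = 0 := by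
    have := congrArg (PadicInt.toZMod (p := p)) hz
    rw [map_pow, hz0, zero_pow hp.out.ne_zero, map_add, map_pow, map_natCast, ZMod.pow_card,
      map_one] at this
    push_cast
    exact this.symm
  rw [ZMod.natCast_eq_zero_iff] at h0
  exact absurd (Nat.le_of_dvd (by omega) h0) (by omega)

/-- Cube roots of unity give the criterion for `p ≡ 1 (mod 3)`. -/
theorem criterion_of_one_mod_three (h3 : p % 3 = 1) :
    ∃ a : ℕ, 0 < a ∧ a ≤ p - 2 ∧ (p : ℤ) ^ 2 ∣ ((a : ℤ) + 1) ^ p - (a : ℤ) ^ p - 1 := by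
  haveI : Fact (Nat.Prime 3) := ⟨Nat.prime_three⟩
  obtain ⟨g, hg⟩ := exists_prime_orderOf_dvd_card' (G := (ZMod p)ˣ) 3 (by
    rw [Nat.card_eq_fintype_card, ZMod.card_units]; omega)
  set a : ℕ := (g : ZMod p).val
  have ha : ((a : ℕ) : ZMod p) = g := ZMod.natCast_zmod_val _
  have hg3 : (g : ZMod p) ^ 3 = 1 := by
    rw [← Units.val_pow_eq_pow_val, ← hg, pow_orderOf_eq_one, Units.val_one]
  have hg1 : (g : ZMod p) ≠ 1 := fun e => by
    rw [Units.val_eq_one] at e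
    rw [e, orderOf_one] at hg
    norm_num at hg
  have hquad : (g : ZMod p) ^ 2 + g + 1 = 0 := by
    rcases mul_eq_zero.mp (show ((g : ZMod p) - 1) * (g ^ 2 + g + 1) = 0 by
      linear_combination hg3) with e | e
    · exact absurd (sub_eq_zero.mp e) hg1
    · exact e
  have hcast : ∀ w : ℤ, (p : ℤ) ∣ w ↔ (w : ZMod p) = 0 := fun w =>
    (ZMod.intCast_zmod_eq_zero_iff_dvd w p).symm
  have e1 : (p : ℤ) ^ 2 ∣ ((a : ℤ) + 1) ^ p - (-((a : ℤ) ^ 2)) ^ p := pow_congr (by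
    rw [hcast]; push_cast; rw [ha]; linear_combination hquad)
  have e2 : (p : ℤ) ^ 2 ∣ ((a : ℤ) ^ 3) ^ p - 1 := by
    simpa using pow_congr (p := p) (u := (a : ℤ) ^ 3) (v := 1)
      (by rw [hcast]; push_cast; rw [ha, hg3, sub_self])
  have hodd : Odd p := hp.out.odd_of_ne_two (by omega)
  have hne : ¬ (p : ℤ) ∣ (a : ℤ) ^ p - 1 := by
    rw [hcast]; push_cast; rw [ha, ZMod.pow_card, sub_eq_zero]; exact hg1
  have e3 : (p : ℤ) ^ 2 ∣ ((a : ℤ) ^ p) ^ 2 + (a : ℤ) ^ p + 1 :=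
    (((Nat.prime_iff_prime_int.mp hp.out).coprime_iff_not_dvd.mpr hne).pow_left).dvd_of_dvd_mul_left
      (by convert! e2 using 1; ring)
  refine ⟨a, ?_, ?_, ?_⟩
  · exact Nat.pos_of_ne_zero fun e => g.ne_zero (by rw [← ha, e, Nat.cast_zero])
  · have := ZMod.val_lt (g : ZMod p)
    by_contra hc
    have e : a + 1 = p := by omega
    have h1 : (g : ZMod p) + 1 = 0 := by
      rw [← ha, ← Nat.cast_one, ← Nat.cast_add, e, ZMod.natCast_self]
    exact one_ne_zero (α := ZMod p) (by linear_combination hquad - (g : ZMod p) * h1)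
  · rw [hodd.neg_pow] at e1
    have := dvd_sub e1 e3
    convert! this using 1
    ring

end FA.Schur

end
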